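import Mathlib
import Fermat.Agent.S24.ModDefs
import Fermat.Prelude.Def_ModularCurve_ReductionModL

/-!
# S15 (M): common vocabulary of the reduction bricks (definitions only)

* `jbar k N d hd` : the function `j̄(q^d)` on the reduction of `X₀(N)` over `k`;
* `NonInt A P`   : the place `P` of `ℚ̄(X₀(M))` is a pole of `j`, or a point whose `j`-value is
  not in the valuation ring `A`;
* `TypeInf A hpM P`, `TypeZero A hpM P` : the type of a non-integral place at a prime `p ∣ M`: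
  a cusp with `ord j_p = p · ord j` (resp. `ord j = p · ord j_p`), or a point over `(b, a)`,
  `b ∉ A`, with `|a / b^p| = 1` (resp. `< 1`).

`S24.jFormal M ⟨d, h⟩` is the function `j(q^d)` of main (`Cusp45.jd M d h` by `rfl`).
-/

set_option autoImplicit false

noncomputable section

namespace Fermat.Agent.S15P.M6

open ModularCurve AlgebraicCurve Fermat.Agent.S24

local notation "Qb" => AlgebraicClosure ℚ

/-- `j̄(q^d)` on the reduction of `X₀(N)`. -/
def jbar (k : Type*) [Field k] (N d : ℕ) [NeZero d] (hd : d ∣ N) :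
    modularFunctionFieldFullC k N :=
  ⟨qExpand k d (jqModC k), jqModCd_mem_full k N hd⟩

/-- `P` is a pole of `j`, or a point with `j`-value outside `A`. -/
def NonInt (A : ValuationSubring Qb) {M : ℕ} [NeZero M] (P : Place Qb (FN M)) : Prop :=
  P.ord (jFormal M ⟨1, one_dvd M⟩) < 0 ∨
    ∃ b : Qb, b ∉ A ∧ 0 < P.ord (jFormal M ⟨1, one_dvd M⟩ - algebraMap Qb (FN M) b)

/-- Type `∞` at `p`: a cusp with `ord j_p = p · ord j`, or a point over `(b, a)`, `b ∉ A`, with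
`|a / b^p| = 1`. -/
def TypeInf (A : ValuationSubring Qb) {M p : ℕ} [NeZero M] (hpM : p ∣ M)
    (P : Place Qb (FN M)) : Prop :=
  (P.ord (jFormal M ⟨1, one_dvd M⟩) < 0 ∧
      P.ord (jFormal M ⟨p, hpM⟩) = p * P.ord (jFormal M ⟨1, one_dvd M⟩)) ∨
    ∃ b a : Qb, b ∉ A ∧ 0 < P.ord (jFormal M ⟨1, one_dvd M⟩ - algebraMap Qb (FN M) b) ∧
      0 < P.ord (jFormal M ⟨p, hpM⟩ - algebraMap Qb (FN M) a) ∧ A.valuation (a / b ^ p) = 1

/-- Type `0` at `p`: a cusp with `ord j = p · ord j_p`, or a point over `(b, a)`, `b ∉ A`, with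
`|a / b^p| < 1`. -/
def TypeZero (A : ValuationSubring Qb) {M p : ℕ} [NeZero M] (hpM : p ∣ M)
    (P : Place Qb (FN M)) : Prop :=
  (P.ord (jFormal M ⟨1, one_dvd M⟩) < 0 ∧
      P.ord (jFormal M ⟨1, one_dvd M⟩) = p * P.ord (jFormal M ⟨p, hpM⟩)) ∨
    ∃ b a : Qb, b ∉ A ∧ 0 < P.ord (jFormal M ⟨1, one_dvd M⟩ - algebraMap Qb (FN M) b) ∧
      0 < P.ord (jFormal M ⟨p, hpM⟩ - algebraMap Qb (FN M) a) ∧ A.valuation (a / b ^ p) < 1

theorem typeInf_nonInt {A : ValuationSubring Qb} {M p : ℕ} [NeZero M] {hpM : p ∣ M}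
    {P : Place Qb (FN M)} (h : TypeInf A hpM P) : NonInt A P := by
  rcases h with ⟨h, -⟩ | ⟨b, a, hb, hx, -, -⟩
  · exact Or.inl h
  · exact Or.inr ⟨b, hb, hx⟩

theorem typeZero_nonInt {A : ValuationSubring Qb} {M p : ℕ} [NeZero M] {hpM : p ∣ M}
    {P : Place Qb (FN M)} (h : TypeZero A hpM P) : NonInt A P := by
  rcases h with ⟨h, -⟩ | ⟨b, a, hb, hx, -, -⟩
  · exact Or.inl h
  · exact Or.inr ⟨b, hb, hx⟩

end Fermat.Agent.S15P.M6
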