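import Mathlib
import Fermat.Agent.S15P.M3.Cusp9
import Fermat.Agent.S15P.M6.Defs

/-!
# S15 (M): reduction of the non-integral places of `X₀(M)`, by type (helper6)

Complements `S15P/M3/Cusp9` (helper9: the points over a non-integral `j`-value) with the cusps,
and packages the result in the vocabulary of `S15P/M6/Defs`.

Abstract part (`A` a valuation subring of `ℚ̄`, `π : A → k` its residue map, `r` any place
reduction):

* `red_neg_of_pole`        : a pole of `j` reduces to a pole of `j̄` (any level `N`, `N ≠ 0` in `k`);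
* `exists_pole_of_red_neg` : every pole of `j̄` is the reduction of a pole of `j`;
* `ord_eq_mul_of_u_pos`    : level `p m`; if `ū = J̄(q^p) / J̄(q)^p` vanishes at a pole `Q` of `j̄`
                             then `ord_Q J̄(q) = p * ord_Q J̄(q^p)`;
* `cusp_zero_of_pole`, `cusp_unit_of_pole` : the reduction of a cusp of type `0` (resp. `∞`) at
                             `p` is a pole of `j̄` of the same type.

Packaged part (level `M`, `p ∣ M` prime, `ℓ ∤ M` prime, `A` over `ℓ`, `h : ReductionInputsModL A M`,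
`r = placeReductionModL h`):

* `red_pole_of_nonInt` : `NonInt A P → ord_{r P} j̄ < 0`;
* `red_typeZero`       : `TypeZero A hpM P → ord_{r P} j̄ < 0 ∧ ord_{r P} j̄ = p * ord_{r P} j̄_p`;
* `red_typeZero_dvd`   : `TypeZero A hpM P → ord_{r P} j̄ < 0 ∧ p ∣ ord_{r P} j̄`;
* `red_typeInf`        : `TypeInf A hpM P → ord_{r P} j̄ < 0 ∧ ord_{r P} j̄_p = p * ord_{r P} j̄`;
* `red_exists_cusp`    : every pole of `j̄` is `r c` for a pole `c` of `j`.
-/

set_option autoImplicit false
set_option synthInstance.maxHeartbeats 400000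
set_option linter.unusedSectionVars false
set_option linter.style.haveILetI false

namespace Fermat.Agent.S15P.M6.RedType6

open ModularCurve AlgebraicCurve Fermat.Agent.S24 Fermat.Agent.S28 Fermat.Agent.Lib.Red
open Fermat.Agent.S28.ModEq Fermat.Agent.CAR.Ell.FrickeRed Fermat.Agent.Lib.FF.ModL
open Fermat.Agent.S15P.M3.Cusp9
open scoped IntermediateField

noncomputable section

/-! ### The combinatorial step -/

theorem exists_of_mapDomain_pos {α β : Type*} (r : α → β) (D : α →₀ ℤ) (Q : β)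
    (h : 0 < Finsupp.mapDomain r D Q) : ∃ P, r P = Q ∧ 0 < D P := by
  classical
  by_contra hcon
  simp only [not_exists, not_and, not_lt] at hcon
  rw [mapDomain_apply_eq_sum] at h
  have hle : ∑ P ∈ D.support, (if r P = Q then D P else 0) ≤ 0 := by
    refine Finset.sum_nonpos fun P _ => ?_
    split_ifs with hPQ
    · exact hcon P hPQ
    · exact le_rfl
  omega

/-! ### Poles of `j` and poles of `j̄` (any level) -/

section AnyLevel

variable {A : ValuationSubring KQ} {k : Type} [Field k] {π : A →+* k} {N : ℕ} [NeZero N]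

/-- The integral series of `1 / J(q)` at level `N`. -/
theorem exists_series_inv (A : ValuationSubring KQ) {k : Type} [Field k] (π : A →+* k)
    (N : ℕ) [NeZero N] :
    ∃ g : LaurentSeries A,
      coeffMap A.subtype g = (((jBar N)⁻¹ : FN N) : LaurentSeries KQ) ∧
      coeffMap π g = (((Jbar k N)⁻¹ : ↥(modularFunctionFieldFullC k N)) : LaurentSeries k) := by
  obtain ⟨g, -, hg⟩ := exists_Jinv A 1
  refine ⟨g, ?_, ?_⟩
  · show incl A g = _
    have h1 := congrArg (incl A) hg
    rw [map_mul, map_one, incl_Jd] at h1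
    rw [eq_inv_of_mul_eq_one_right h1, IntermediateField.coe_inv, jBar, coe_jFormal9]
  · show rbar A π g = _
    have h1 := congrArg (rbar A π) hg
    rw [map_mul, map_one, rbar_Jd] at h1
    rw [eq_inv_of_mul_eq_one_right h1, IntermediateField.coe_inv, coe_Jbar9]

variable [IsAlgClosed k]

/-- **A pole of `j` reduces to a pole of `j̄`.** -/
theorem red_neg_of_pole (hπ : ∀ a : A, ¬ IsUnit a → π a = 0) (hsurj : Function.Surjective π)
    (hNk : (N : k) ≠ 0)
    {r : Place KQ (FN N) → Place k ↥(modularFunctionFieldFullC k N)}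
    (hr : IsPlaceReductionAlong A π N r) (P : Place KQ (FN N))
    (hP : P.ord (jBar N) < 0) : (r P).ord (Jbar k N) < 0 := by
  obtain ⟨g, hgL, hgk⟩ := exists_series_inv A π N
  haveI := finiteDimensional_jBar N
  haveI := finiteDimensional_Jbar k N
  have hadjL : KQ⟮(jBar N)⁻¹⟯ = KQ⟮jBar N⟯ := adjoin_inv_eq (jBar N)
  have hadjk : k⟮(Jbar k N)⁻¹⟯ = k⟮Jbar k N⟯ := adjoin_inv_eq (Jbar k N)
  haveI : FiniteDimensional KQ⟮(jBar N)⁻¹⟯ (FN N) := finiteDimensional_adjoin_congr hadjL.symm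
  haveI : FiniteDimensional k⟮(Jbar k N)⁻¹⟯ ↥(modularFunctionFieldFullC k N) :=
    finiteDimensional_adjoin_congr hadjk.symm
  have hpos : 0 < P.ord (jBar N)⁻¹ := by
    rw [Place.ord_inv]
    omega
  have h := ord_red_pos_of_pos hr g (jBar N)⁻¹ (Jbar k N)⁻¹ hgL hgk
    (transcendental_inv (transcendental_jBar N)) (transcendental_inv (transcendental_Jbar k N))
    (by
      rw [finrank_adjoin_congr hadjL, finrank_adjoin_congr hadjk]
      exact finrank_jBar_eq_Jbar hπ hsurj hNk) P hpos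
  rw [Place.ord_inv] at h
  omega

/-- **Every pole of `j̄` is the reduction of a pole of `j`.** -/
theorem exists_pole_of_red_neg
    {r : Place KQ (FN N) → Place k ↥(modularFunctionFieldFullC k N)}
    (hr : IsPlaceReductionAlong A π N r) (Q : Place k ↥(modularFunctionFieldFullC k N))
    (hQ : Q.ord (Jbar k N) < 0) : ∃ P : Place KQ (FN N), r P = Q ∧ P.ord (jBar N) < 0 := by
  obtain ⟨g, hgL, hgk⟩ := exists_series_inv A π N
  haveI := finiteDimensional_jBar N
  have h := ord_red_eq_mapDomain (jBar N) hr g (jBar N)⁻¹ (Jbar k N)⁻¹ hgL hgk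
    (inv_ne_zero (Jbar_ne_zero9 k N)) Q
  rw [Place.ord_inv] at h
  obtain ⟨P, hPQ, hP⟩ := exists_of_mapDomain_pos r _ Q (by rw [← h]; omega)
  rw [divOf_apply, Place.ord_inv] at hP
  exact ⟨P, hPQ, by omega⟩

end AnyLevel

/-! ### The types, level `p m` -/

section LevelPM

variable {A : ValuationSubring KQ} {k : Type} [Field k] {π : A →+* k}
variable (p m : ℕ) [NeZero p] [NeZero m] [IsAlgClosed k]

/-- `U - 1` as a function, in characteristic `0` and `ℓ`. -/
theorem series_sub_one {U : LaurentSeries A}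
    (hUL : coeffMap A.subtype U =
      ((jFormal (p * m) ⟨p, dvd_mul_right p m⟩ * (jBar (p * m))⁻¹ ^ p : FN (p * m)) :
        LaurentSeries KQ))
    (hUk : coeffMap π U = ((Jdk k (p * m) (dvd_mul_right p m) * (Jbar k (p * m))⁻¹ ^ p :
        ↥(modularFunctionFieldFullC k (p * m))) : LaurentSeries k)) :
    coeffMap A.subtype (U - 1) =
        ((jFormal (p * m) ⟨p, dvd_mul_right p m⟩ * (jBar (p * m))⁻¹ ^ p - 1 : FN (p * m)) :
          LaurentSeries KQ) ∧
      coeffMap π (U - 1) =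
        ((Jdk k (p * m) (dvd_mul_right p m) * (Jbar k (p * m))⁻¹ ^ p - 1 :
          ↥(modularFunctionFieldFullC k (p * m))) : LaurentSeries k) ∧
      (Jdk k (p * m) (dvd_mul_right p m) * (Jbar k (p * m))⁻¹ ^ p - 1 ≠ 0 →
        jFormal (p * m) ⟨p, dvd_mul_right p m⟩ * (jBar (p * m))⁻¹ ^ p - 1 ≠ 0) := by
  have hL1 : coeffMap A.subtype (U - 1) =
      ((jFormal (p * m) ⟨p, dvd_mul_right p m⟩ * (jBar (p * m))⁻¹ ^ p - 1 : FN (p * m)) :
        LaurentSeries KQ) := by
    rw [map_sub, map_one, hUL, AddSubgroupClass.coe_sub]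
    rfl
  have hk1 : coeffMap π (U - 1) =
      ((Jdk k (p * m) (dvd_mul_right p m) * (Jbar k (p * m))⁻¹ ^ p - 1 :
        ↥(modularFunctionFieldFullC k (p * m))) : LaurentSeries k) := by
    rw [map_sub, map_one, hUk, AddSubgroupClass.coe_sub]
    rfl
  refine ⟨hL1, hk1, ?_⟩
  intro h10 hf
  apply h10
  apply Subtype.ext
  rw [← hk1]
  have hy : U - 1 = 0 := by
    apply incl_injective A
    show coeffMap A.subtype _ = coeffMap A.subtype 0
    rw [hL1, hf, map_zero]
    rfl
  rw [hy, map_zero]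
  rfl

/-- **Type `0` in characteristic `ℓ`**: if `ū = J̄(q^p) / J̄(q)^p` vanishes at a pole `Q` of `j̄`,
then `ord_Q J̄(q) = p * ord_Q J̄(q^p)`. -/
theorem ord_eq_mul_of_u_pos (hp : p.Prime) (D : TD.ModEq p)
    (hπ : ∀ a : A, ¬ IsUnit a → π a = 0)
    (hsurj : Function.Surjective π) (hNk : ((p * m : ℕ) : k) ≠ 0)
    {r : Place KQ (FN (p * m)) → Place k ↥(modularFunctionFieldFullC k (p * m))}
    (hr : IsPlaceReductionAlong A π (p * m) r)
    (Q : Place k ↥(modularFunctionFieldFullC k (p * m)))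
    (hQ : Q.ord (Jbar k (p * m)) < 0)
    (h3 : 0 < Q.ord (Jdk k (p * m) (dvd_mul_right p m) * (Jbar k (p * m))⁻¹ ^ p)) :
    Q.ord (Jbar k (p * m)) = p * Q.ord (Jdk k (p * m) (dvd_mul_right p m)) := by
  obtain ⟨U, g, gp, hUL, hUk, hgL, hgk, hgpL, hgpk⟩ := exists_series A π p m
  obtain ⟨hL1, hk1, hne1⟩ := series_sub_one p m hUL hUk
  haveI := finiteDimensional_jBar (p * m)
  have hJb := Jbar_ne_zero9 k (p * m)
  have hJpb : Jdk k (p * m) (dvd_mul_right p m) ≠ 0 :=
    Jdk_ne_zero9 k (p * m) (dvd_mul_right p m) (NeZero.ne p)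
  have hub : Jdk k (p * m) (dvd_mul_right p m) * (Jbar k (p * m))⁻¹ ^ p ≠ 0 :=
    mul_ne_zero hJpb (pow_ne_zero _ (inv_ne_zero hJb))
  have hfib := fun (P : Place KQ (FN (p * m))) (hPQ : r P = Q) =>
    fibre_local p m hp D hπ hsurj hNk hr P (by rw [hPQ]; exact hQ)
  -- no cusp of type `∞` in the fibre
  have hT : ∀ P : Place KQ (FN (p * m)), r P = Q →
      P.ord (jBar (p * m))⁻¹ = p * P.ord (jFormal (p * m) ⟨p, dvd_mul_right p m⟩)⁻¹ := by
    intro P hPQ
    rcases (hfib P hPQ).2 with ⟨-, h2⟩ | h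
    · exfalso
      by_cases h10 : Jdk k (p * m) (dvd_mul_right p m) * (Jbar k (p * m))⁻¹ ^ p - 1 = 0
      · rw [sub_eq_zero.mp h10, Place.ord_one] at h3
        exact lt_irrefl _ h3
      · have hpos1 := ord_red_pos_of_fibre (jBar (p * m)) hr _ _ _ hL1 hk1 h10 Q
          (fun P' hP'Q => ord_nonneg_of_mem P' (sub_mem (mem_of_ord_nonneg P' (hfib P' hP'Q).1)
            (one_mem _)))
          P hPQ (h2 (hne1 h10))
        have h5 := ord_sub_ge Q hub h10 (by rw [sub_sub_cancel]; exact one_ne_zero)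
        rw [sub_sub_cancel, Place.ord_one] at h5
        have h6 := lt_min h3 hpos1
        omega
    · exact h
  -- push forward `1 / J(q)` and `1 / J(q^p)`
  have hfin := ord_red_eq_mul_of_fibre (jBar (p * m)) hr g gp _ _ _ _ hgL hgk (inv_ne_zero hJb)
    hgpL hgpk (inv_ne_zero hJpb) Q p hT
  rw [Place.ord_inv, Place.ord_inv] at hfin
  linarith

/-- **A cusp of type `0` reduces to a pole of `j̄` of type `0`.** -/
theorem cusp_zero_of_pole (hp : p.Prime) (D : TD.ModEq p)
    (hπ : ∀ a : A, ¬ IsUnit a → π a = 0)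
    (hsurj : Function.Surjective π) (hNk : ((p * m : ℕ) : k) ≠ 0)
    {r : Place KQ (FN (p * m)) → Place k ↥(modularFunctionFieldFullC k (p * m))}
    (hr : IsPlaceReductionAlong A π (p * m) r) (x : Place KQ (FN (p * m)))
    (hx : x.ord (jBar (p * m)) < 0)
    (hT : x.ord (jBar (p * m)) = p * x.ord (jFormal (p * m) ⟨p, dvd_mul_right p m⟩)) :
    (r x).ord (Jbar k (p * m)) = p * (r x).ord (Jdk k (p * m) (dvd_mul_right p m)) := by
  have hQ : (r x).ord (Jbar k (p * m)) < 0 := red_neg_of_pole hπ hsurj hNk hr x hx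
  obtain ⟨U, g, gp, hUL, hUk, -, -, -, -⟩ := exists_series A π p m
  haveI := finiteDimensional_jBar (p * m)
  have hJb := Jbar_ne_zero9 k (p * m)
  have hJpb : Jdk k (p * m) (dvd_mul_right p m) ≠ 0 :=
    Jdk_ne_zero9 k (p * m) (dvd_mul_right p m) (NeZero.ne p)
  have hub : Jdk k (p * m) (dvd_mul_right p m) * (Jbar k (p * m))⁻¹ ^ p ≠ 0 :=
    mul_ne_zero hJpb (pow_ne_zero _ (inv_ne_zero hJb))
  have hfib := fun (P : Place KQ (FN (p * m))) (hPQ : r P = r x) =>
    fibre_local p m hp D hπ hsurj hNk hr P (by rw [hPQ]; exact hQ)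
  have hJne := jBar_ne_zero9 (p * m)
  have hJpne := jFormal_ne_zero9 (p * m) ⟨p, dvd_mul_right p m⟩
  have hordu : x.ord (jFormal (p * m) ⟨p, dvd_mul_right p m⟩ * (jBar (p * m))⁻¹ ^ p) =
      x.ord (jFormal (p * m) ⟨p, dvd_mul_right p m⟩) - p * x.ord (jBar (p * m)) := by
    rw [x.ord_mul hJpne (pow_ne_zero _ (inv_ne_zero hJne)), ← zpow_natCast, x.ord_zpow,
      x.ord_inv]
    ring
  have hp2 : (2 : ℤ) ≤ p := by exact_mod_cast hp.two_le
  have hpp : (0 : ℤ) < (p : ℤ) * p - 1 := by nlinarith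
  have hJp : x.ord (jFormal (p * m) ⟨p, dvd_mul_right p m⟩) < 0 := by
    rw [hT] at hx
    by_contra hcon
    rw [not_lt] at hcon
    have := mul_nonneg (by linarith : (0 : ℤ) ≤ p) hcon
    omega
  have hxu : 0 < x.ord (jFormal (p * m) ⟨p, dvd_mul_right p m⟩ * (jBar (p * m))⁻¹ ^ p) := by
    rw [hordu, hT]
    nlinarith [mul_pos (neg_pos.mpr hJp) hpp]
  have h3 : 0 < (r x).ord (Jdk k (p * m) (dvd_mul_right p m) * (Jbar k (p * m))⁻¹ ^ p) :=
    ord_red_pos_of_fibre (jBar (p * m)) hr U _ _ hUL hUk hub (r x)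
      (fun P hPQ => (hfib P hPQ).1) x rfl hxu
  exact ord_eq_mul_of_u_pos p m hp D hπ hsurj hNk hr (r x) hQ h3

/-- **A cusp of type `∞` reduces to a pole of `j̄` of type `∞`.** -/
theorem cusp_unit_of_pole (hp : p.Prime) (D : TD.ModEq p)
    (hπ : ∀ a : A, ¬ IsUnit a → π a = 0)
    (hsurj : Function.Surjective π) (hNk : ((p * m : ℕ) : k) ≠ 0)
    {r : Place KQ (FN (p * m)) → Place k ↥(modularFunctionFieldFullC k (p * m))}
    (hr : IsPlaceReductionAlong A π (p * m) r) (x : Place KQ (FN (p * m)))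
    (hx : x.ord (jBar (p * m)) < 0)
    (hT : x.ord (jFormal (p * m) ⟨p, dvd_mul_right p m⟩) = p * x.ord (jBar (p * m))) :
    (r x).ord (Jdk k (p * m) (dvd_mul_right p m)) = p * (r x).ord (Jbar k (p * m)) := by
  have hQ : (r x).ord (Jbar k (p * m)) < 0 := red_neg_of_pole hπ hsurj hNk hr x hx
  obtain ⟨U, g, gp, hUL, hUk, -, -, -, -⟩ := exists_series A π p m
  obtain ⟨hL1, hk1, hne1⟩ := series_sub_one p m hUL hUk
  haveI := finiteDimensional_jBar (p * m)
  have hJb := Jbar_ne_zero9 k (p * m)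
  have hJpb : Jdk k (p * m) (dvd_mul_right p m) ≠ 0 :=
    Jdk_ne_zero9 k (p * m) (dvd_mul_right p m) (NeZero.ne p)
  have hub : Jdk k (p * m) (dvd_mul_right p m) * (Jbar k (p * m))⁻¹ ^ p ≠ 0 :=
    mul_ne_zero hJpb (pow_ne_zero _ (inv_ne_zero hJb))
  have hfib := fun (P : Place KQ (FN (p * m))) (hPQ : r P = r x) =>
    fibre_local p m hp D hπ hsurj hNk hr P (by rw [hPQ]; exact hQ)
  have hp2 : (2 : ℤ) ≤ p := by exact_mod_cast hp.two_le
  have hpp : (0 : ℤ) < (p : ℤ) * p - 1 := by nlinarith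
  have key : (r x).ord (Jdk k (p * m) (dvd_mul_right p m) * (Jbar k (p * m))⁻¹ ^ p) = 0 := by
    by_cases h10 : Jdk k (p * m) (dvd_mul_right p m) * (Jbar k (p * m))⁻¹ ^ p - 1 = 0
    · rw [sub_eq_zero.mp h10, Place.ord_one]
    · have hx1 : 0 < x.ord (jFormal (p * m) ⟨p, dvd_mul_right p m⟩ * (jBar (p * m))⁻¹ ^ p - 1) := by
        rcases (hfib x rfl).2 with ⟨-, h2⟩ | h
        · exact h2 (hne1 h10)
        · exfalso
          rw [Place.ord_inv, Place.ord_inv, hT] at h
          nlinarith [mul_pos (neg_pos.mpr hx) hpp]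
      have hpos1 := ord_red_pos_of_fibre (jBar (p * m)) hr _ _ _ hL1 hk1 h10 (r x)
        (fun P' hP'Q => ord_nonneg_of_mem P' (sub_mem (mem_of_ord_nonneg P' (hfib P' hP'Q).1)
          (one_mem _)))
        x rfl hx1
      have hpos1' : 0 < (r x).ord (Jdk k (p * m) (dvd_mul_right p m) * (Jbar k (p * m))⁻¹ ^ p -
          algebraMap k ↥(modularFunctionFieldFullC k (p * m)) 1) := by
        rw [map_one]
        exact hpos1
      exact ord_eq_zero_of_sub_pos (r x) one_ne_zero hpos1'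
  have e : Jdk k (p * m) (dvd_mul_right p m) =
      (Jdk k (p * m) (dvd_mul_right p m) * (Jbar k (p * m))⁻¹ ^ p) * Jbar k (p * m) ^ p := by
    rw [inv_pow, mul_assoc, inv_mul_cancel₀ (pow_ne_zero _ hJb), mul_one]
  calc (r x).ord (Jdk k (p * m) (dvd_mul_right p m))
      = (r x).ord ((Jdk k (p * m) (dvd_mul_right p m) * (Jbar k (p * m))⁻¹ ^ p) *
          Jbar k (p * m) ^ p) := by rw [← e]
    _ = p * (r x).ord (Jbar k (p * m)) := by
        rw [(r x).ord_mul hub (pow_ne_zero _ hJb), key, zero_add, ← zpow_natCast,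
          (r x).ord_zpow]

end LevelPM

/-! ### The packaged statements (vocabulary of `M6/Defs`) -/

section Packaged

local notation "Qb" => AlgebraicClosure ℚ

/-- **(RC1 ⇐)** a non-integral place reduces to a pole of `j̄`. -/
theorem red_pole_of_nonInt {M ℓ : ℕ} [NeZero M] (hℓ : ℓ.Prime) (hℓM : ¬ ℓ ∣ M)
    (A : ValuationSubring Qb) (hA : A.LiesOverPrime ℓ) (h : ReductionInputsModL A M)
    (P : Place Qb (FN M)) (hP : NonInt A P) :
    (placeReductionModL h P).ord (jbar _ M 1 (one_dvd M)) < 0 := by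
  haveI : IsAlgClosed (IsLocalRing.ResidueField A) :=
    Fermat.Agent.Lib.FF.CharP.isAlgClosed_residueField A
  have hNk : ((M : ℕ) : IsLocalRing.ResidueField A) ≠ 0 :=
    Fermat.Agent.ESJ.natCast_residue_ne_zero' A hℓ hA M hℓM
  have hπ := Fermat.Agent.ESJ.residue_eq_zero_of_not_isUnit' A
  have hsurj : Function.Surjective (IsLocalRing.residue A) := IsLocalRing.residue_surjective
  have hr : IsPlaceReductionAlong A (IsLocalRing.residue A) M (placeReductionModL h) :=
    isPlaceReductionModL_placeReductionModL h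
  have eJb : jbar (IsLocalRing.ResidueField A) M 1 (one_dvd M) =
      Jbar (IsLocalRing.ResidueField A) M := Subtype.ext (qExpand_one_apply _)
  rw [eJb]
  rcases hP with hP | ⟨b, hb, hxb⟩
  · exact red_neg_of_pole hπ hsurj hNk hr P hP
  · exact red_neg_of_nonint hπ hsurj hNk hr P b hb hxb

/-- **(RC2)** every pole of `j̄` is the reduction of a pole of `j`. -/
theorem red_exists_cusp {M ℓ : ℕ} [NeZero M] (_hℓ : ℓ.Prime) (_hℓM : ¬ ℓ ∣ M)
    (A : ValuationSubring Qb) (_hA : A.LiesOverPrime ℓ) (h : ReductionInputsModL A M)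
    (Q : Place (IsLocalRing.ResidueField A) (modularFunctionFieldFullC _ M))
    (hQ : Q.ord (jbar _ M 1 (one_dvd M)) < 0) :
    ∃ c : Place Qb (FN M), c.ord (jFormal M ⟨1, one_dvd M⟩) < 0 ∧ placeReductionModL h c = Q := by
  haveI : IsAlgClosed (IsLocalRing.ResidueField A) :=
    Fermat.Agent.Lib.FF.CharP.isAlgClosed_residueField A
  have hr : IsPlaceReductionAlong A (IsLocalRing.residue A) M (placeReductionModL h) :=
    isPlaceReductionModL_placeReductionModL h
  have eJb : jbar (IsLocalRing.ResidueField A) M 1 (one_dvd M) =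
      Jbar (IsLocalRing.ResidueField A) M := Subtype.ext (qExpand_one_apply _)
  rw [eJb] at hQ
  obtain ⟨P, hPQ, hP⟩ := exists_pole_of_red_neg hr Q hQ
  exact ⟨P, hP, hPQ⟩

/-- **(RC5)** a place of type `0` at `p` reduces to a pole of `j̄` of type `0`. -/
theorem red_typeZero {M p ℓ : ℕ} [NeZero M] [NeZero p] (hp : p.Prime) (hℓ : ℓ.Prime)
    (hℓM : ¬ ℓ ∣ M) (hpM : p ∣ M)
    (A : ValuationSubring Qb) (hA : A.LiesOverPrime ℓ) (h : ReductionInputsModL A M)
    (P : Place Qb (FN M)) (hP : TypeZero A hpM P) :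
    (placeReductionModL h P).ord (jbar _ M 1 (one_dvd M)) < 0 ∧
      (placeReductionModL h P).ord (jbar _ M 1 (one_dvd M)) =
        p * (placeReductionModL h P).ord (jbar _ M p hpM) := by
  obtain ⟨m, rfl⟩ := hpM
  haveI : NeZero m := ⟨fun hm => NeZero.ne (p * m) (by rw [hm, mul_zero])⟩
  haveI : IsAlgClosed (IsLocalRing.ResidueField A) :=
    Fermat.Agent.Lib.FF.CharP.isAlgClosed_residueField A
  have hNk : ((p * m : ℕ) : IsLocalRing.ResidueField A) ≠ 0 :=
    Fermat.Agent.ESJ.natCast_residue_ne_zero' A hℓ hA (p * m) hℓM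
  have hπ := Fermat.Agent.ESJ.residue_eq_zero_of_not_isUnit' A
  have hsurj : Function.Surjective (IsLocalRing.residue A) := IsLocalRing.residue_surjective
  have hr : IsPlaceReductionAlong A (IsLocalRing.residue A) (p * m) (placeReductionModL h) :=
    isPlaceReductionModL_placeReductionModL h
  obtain ⟨D0⟩ := Fermat.Agent.S28.ModEqX.exists_modEqData p hp
  have eJb : jbar (IsLocalRing.ResidueField A) (p * m) 1 (one_dvd (p * m)) =
      Jbar (IsLocalRing.ResidueField A) (p * m) := Subtype.ext (qExpand_one_apply _)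
  have eJpb : jbar (IsLocalRing.ResidueField A) (p * m) p (Dvd.intro m rfl) =
      Jdk (IsLocalRing.ResidueField A) (p * m) (dvd_mul_right p m) :=
    Subtype.ext (TD.Jd_eq (IsLocalRing.ResidueField A) p).symm
  rw [eJb, eJpb]
  rcases hP with ⟨hx, hT⟩ | ⟨b, a, hb, hxb, hxa, hval⟩
  · exact ⟨red_neg_of_pole hπ hsurj hNk hr P hx,
      cusp_zero_of_pole p m hp (Char0Bridge.modEqDataToTD D0) hπ hsurj hNk hr P hx hT⟩
  · have hQ := red_neg_of_nonint hπ hsurj hNk hr P b hb hxb
    exact ⟨hQ,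
      cusp_zero p m hp (Char0Bridge.modEqDataToTD D0) hπ hsurj hNk hr P b a hb hxb hxa hQ hval⟩

/-- **(RC5), weak form**: the order of `j̄` at the reduction of a place of type `0` at `p` is
negative and divisible by `p`. -/
theorem red_typeZero_dvd {M p ℓ : ℕ} [NeZero M] (hp : p.Prime) (hℓ : ℓ.Prime)
    (hℓM : ¬ ℓ ∣ M) (hpM : p ∣ M)
    (A : ValuationSubring Qb) (hA : A.LiesOverPrime ℓ) (h : ReductionInputsModL A M)
    (P : Place Qb (FN M)) (hP : TypeZero A hpM P) :
    (placeReductionModL h P).ord (jbar _ M 1 (one_dvd M)) < 0 ∧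
      (p : ℤ) ∣ (placeReductionModL h P).ord (jbar _ M 1 (one_dvd M)) := by
  haveI : NeZero p := ⟨hp.ne_zero⟩
  obtain ⟨h1, h2⟩ := red_typeZero hp hℓ hℓM hpM A hA h P hP
  exact ⟨h1, Dvd.intro _ h2.symm⟩

/-- **(RC4)** a place of type `∞` at `p` reduces to a pole of `j̄` of type `∞`. -/
theorem red_typeInf {M p ℓ : ℕ} [NeZero M] [NeZero p] (hp : p.Prime) (hℓ : ℓ.Prime)
    (hℓM : ¬ ℓ ∣ M) (hpM : p ∣ M)
    (A : ValuationSubring Qb) (hA : A.LiesOverPrime ℓ) (h : ReductionInputsModL A M)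
    (P : Place Qb (FN M)) (hP : TypeInf A hpM P) :
    (placeReductionModL h P).ord (jbar _ M 1 (one_dvd M)) < 0 ∧
      (placeReductionModL h P).ord (jbar _ M p hpM) =
        p * (placeReductionModL h P).ord (jbar _ M 1 (one_dvd M)) := by
  obtain ⟨m, rfl⟩ := hpM
  haveI : NeZero m := ⟨fun hm => NeZero.ne (p * m) (by rw [hm, mul_zero])⟩
  haveI : IsAlgClosed (IsLocalRing.ResidueField A) :=
    Fermat.Agent.Lib.FF.CharP.isAlgClosed_residueField A
  have hNk : ((p * m : ℕ) : IsLocalRing.ResidueField A) ≠ 0 :=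
    Fermat.Agent.ESJ.natCast_residue_ne_zero' A hℓ hA (p * m) hℓM
  have hπ := Fermat.Agent.ESJ.residue_eq_zero_of_not_isUnit' A
  have hsurj : Function.Surjective (IsLocalRing.residue A) := IsLocalRing.residue_surjective
  have hr : IsPlaceReductionAlong A (IsLocalRing.residue A) (p * m) (placeReductionModL h) :=
    isPlaceReductionModL_placeReductionModL h
  obtain ⟨D0⟩ := Fermat.Agent.S28.ModEqX.exists_modEqData p hp
  have eJb : jbar (IsLocalRing.ResidueField A) (p * m) 1 (one_dvd (p * m)) =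
      Jbar (IsLocalRing.ResidueField A) (p * m) := Subtype.ext (qExpand_one_apply _)
  have eJpb : jbar (IsLocalRing.ResidueField A) (p * m) p (Dvd.intro m rfl) =
      Jdk (IsLocalRing.ResidueField A) (p * m) (dvd_mul_right p m) :=
    Subtype.ext (TD.Jd_eq (IsLocalRing.ResidueField A) p).symm
  rw [eJb, eJpb]
  rcases hP with ⟨hx, hT⟩ | ⟨b, a, hb, hxb, hxa, hval⟩
  · exact ⟨red_neg_of_pole hπ hsurj hNk hr P hx,
      cusp_unit_of_pole p m hp (Char0Bridge.modEqDataToTD D0) hπ hsurj hNk hr P hx hT⟩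
  · have hQ := red_neg_of_nonint hπ hsurj hNk hr P b hb hxb
    exact ⟨hQ,
      cusp_unit p m hp (Char0Bridge.modEqDataToTD D0) hπ hsurj hNk hr P b a hb hxb hxa hQ hval⟩

end Packaged

end

end Fermat.Agent.S15P.M6.RedType6
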